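import Fermat.Agent.TateExport.Main
import Fermat.Agent.KummerDivisor.Flat
import Fermat.Agent.JacCompare.Equivariant
import Fermat.Agent.KummerES.ModulesFinal

/-!
# Tate maps from divisor classes of Kummer roots

The divisor classes of Kummer roots are compatible in the exponent, so they give `HasTateMaps`, and
with the Galois modules of parabolic characters the export `CarayolReduction.TateExport N p`.
-/

set_option autoImplicit false

noncomputable section

open UpperHalfPlane CongruenceSubgroup AlgebraicCurve ModularCurve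
open ModularCurve.Period (IsParabolicHom parabolicHoms)
open scoped MatrixGroups Manifold

namespace Fermat.Agent.TateExport

open KummerDivisor
open HeckeDatum (ParChar)

variable {N : ℕ} [NeZero N] {p : ℕ} [NeZero p] {ι : AlgebraicClosure ℚ →+* ℂ}

theorem rootPow_pow_prime (k : ℕ) (x : ZMod (p ^ (k + 1))) :
    KummerES.rootPow (p ^ (k + 1)) x ^ p =
      KummerES.rootPow (p ^ k) (ZMod.castHom (pow_dvd_pow p k.le_succ) (ZMod (p ^ k)) x) := by
  conv_rhs => rw [← ZMod.natCast_zmod_val x, map_natCast, KummerES.rootPow_natCast,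
    KummerES.zetaC_pow_of_dvd (pow_dvd_pow p k.le_succ)]
  rw [KummerES.rootPow, ← pow_mul, ← pow_mul, mul_comm]
  congr 2
  rw [pow_succ, Nat.mul_div_cancel_left _ (pow_pos (Nat.pos_of_ne_zero (NeZero.ne p)) k)]

/-- The classes are compatible in the exponent. -/
theorem isKummerClass_compat {k : ℕ} {χ : Additive (Gamma0 N) →+ ZMod (p ^ (k + 1))}
    {ψ : Additive (Gamma0 N) →+ ZMod (p ^ k)}
    (h : ∀ γ, ZMod.castHom (pow_dvd_pow p k.le_succ) (ZMod (p ^ k)) (χ γ) = ψ γ) {x : JZero N}
    (hx : IsKummerClass ι χ x) : IsKummerClass ι ψ (p • x) := by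
  obtain ⟨g, hg, D, rfl, hD⟩ := hx
  have hp : p ≠ 0 := NeZero.ne p
  have hroot : IsAlgRoot ι ψ (g ^ p) := by
    refine ⟨fun h0 => hg.ne_zero (funext fun τ => ?_), (hg.pow p).holo, fun γ => funext fun τ => ?_,
      ?_⟩
    · have := congrFun h0 τ
      exact eq_zero_of_pow_eq_zero this
    · show g (_ • τ) ^ p = _
      rw [show g ((γ : SL(2, ℤ)) • τ) = _ from congrFun (hg.comp_eq γ) τ, mul_pow,
        rootPow_pow_prime,
        h]
      rfl
    · rw [← pow_mul, ← pow_succ']
      exact hg.pow_mem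
  refine ⟨g ^ p, hroot, p • D, rfl, fun v => ?_⟩
  have hfn : hroot.fn = hg.fn := congrArg _ (Subtype.ext (by
    show (g ^ p) ^ (p ^ k) = g ^ p ^ (k + 1)
    rw [← pow_mul, ← pow_succ']))
  rw [hfn, ← hD v, AddSubmonoidClass.coe_nsmul, Finsupp.smul_apply, nsmul_eq_mul]
  push_cast
  ring

/-- Compatible divisor maps from algebraic roots. -/
theorem hasTateMaps_of_algebraicRoots (G : KummerES.Gamma0Modules N p)
    (hG : HasAlgebraicRoots G ι) : HasTateMaps G := by
  have hex : ∀ (k : ℕ) (χ : ParChar N (p ^ k)), ∃ x, IsKummerClass ι χ.1 x := fun k χ => by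
    obtain ⟨g, -, h, -, -⟩ := hG k 1 χ
    exact exists_isKummerClass h χ.2
  choose φ hφ using hex
  refine ⟨6 * N, fun k => AddMonoidHom.mk' (φ k) fun a b =>
    (hφ k (a + b)).unique ((hφ k a).add (hφ k b)), mul_ne_zero (by norm_num) (NeZero.ne N),
    fun k x y h => (isKummerClass_compat h (hφ (k + 1) x)).unique (hφ k y), fun k σ χ => ?_,
    fun k ℓ hℓ hℓN x y h => ?_, fun k χ hχ => Subtype.ext ?_⟩
  · obtain ⟨g, g', h, h', hconj⟩ := hG k σ χ
    exact (hφ k _).unique (IsKummerClass.smul (h₁ := h) (h₂ := h') hconj (hφ k χ) χ.2)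
  · have h' := JacCompare.isKummerClass_hecke ⟨ℓ, hℓ⟩ hℓN (hφ k x)
    have := Fact.mk hℓ
    rw [h] at h'
    exact (hφ k y).unique h'
  · have h0 : φ k χ = 0 := hχ
    rw [Submodule.coe_smul_of_tower, IsKummerClass.nsmul_eq_zero (h0 ▸ hφ k χ)]
    rfl

/-- Galois modules of parabolic characters with compatible maps to the torsion of `J₀(N)`. -/
theorem exists_hasTateMaps (N : ℕ) [NeZero N] {p : ℕ} (hp : p.Prime) :
    ∃ G : KummerES.Gamma0Modules N p, HasTateMaps G := by
  have : NeZero p := ⟨hp.ne_zero⟩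
  let S : KummerES.ConjLevel (Gamma0 N) N (6 * N) :=
    KummerES.conjLevelTwo (dvd_mul_of_dvd_left (by norm_num) N) (KummerES.isDiagStable_gamma0 N)
      (dvd_mul_left N 6)
  let G := KummerES.gamma0ModulesOfLevel hp S (KummerES.rigidityProp _)
  exact ⟨G, hasTateMaps_of_algebraicRoots G (hasAlgebraicRoots S G fun k σ => rfl)⟩

/-- `CarayolReduction.TateExport N p` holds. -/
theorem tateExport (N : ℕ) [NeZero N] {p : ℕ} (hp : p.Prime) :
    CarayolReduction.TateExport N p := by
  have := Fact.mk hp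
  obtain ⟨G, hG⟩ := exists_hasTateMaps N hp
  exact tateExport_of_maps G hG

end Fermat.Agent.TateExport
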