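import Fermat.Agent.RepTheory.CycloCoeff
import Mathlib.LinearAlgebra.FreeModule.PID
import Mathlib.RingTheory.AdicCompletion.Functoriality
import Mathlib.RingTheory.DiscreteValuationRing.Basic
import Mathlib.NumberTheory.Padics.RingHoms

/-!
# Integral lattices over `ℤ_p` and over complete discrete valuation rings

Three algebraic facts: a compatible system of residues is a `p`-adic integer; a saturated submodule
of `Rʳ` over a principal ideal domain is cut out by a pair of matrices; a complete DVR with finite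
residue field and `p` in its maximal ideal has, at every nonzero element, a nonvanishing
`ℤ_p`-linear functional.
-/

set_option autoImplicit false

noncomputable section

open IsLocalRing Matrix

namespace Fermat.Agent.TateExport

variable {p : ℕ} [Fact p.Prime]

/-- The `p`-adic integer with the given compatible residues. -/
theorem exists_padicInt (v : ∀ k : ℕ, ZMod (p ^ k))
    (hv : ∀ k : ℕ, ZMod.castHom (pow_dvd_pow p k.le_succ) (ZMod (p ^ k)) (v (k + 1)) = v k) :
    ∃ x : ℤ_[p], ∀ k, PadicInt.toZModPow k x = v k := by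
  have hdvd : ∀ i, (p : ℤ) ^ i ∣ ((v (i + 1)).val : ℤ) - (v i).val := by
    intro i
    have := hv i
    rw [← ZMod.natCast_zmod_val (v (i + 1)), map_natCast] at this
    rw [← Nat.cast_pow, ← ZMod.intCast_eq_intCast_iff_dvd_sub]
    push_cast
    rw [this, ZMod.natCast_zmod_val]
  refine ⟨_, fun k =>
    (PadicInt.toZModPow_ofIntSeq_of_pow_dvd_sub (fun i => ((v i).val : ℤ)) p hdvd k).trans ?_⟩
  simp

/-- A saturated submodule of `Rⁿ` is the image of a matrix with a left inverse. -/
theorem exists_splitting {R : Type*} [CommRing R] [IsDomain R] [IsPrincipalIdealRing R] {n : ℕ}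
    (L : Submodule R (Fin n → R))
    (hL : ∀ (a : R) (v : Fin n → R), a ≠ 0 → a • v ∈ L → v ∈ L) :
    ∃ (s : ℕ) (E : Matrix (Fin n) (Fin s) R) (E' : Matrix (Fin s) (Fin n) R),
      E' * E = 1 ∧ (∀ x, E *ᵥ x ∈ L) ∧ ∀ v ∈ L, E *ᵥ (E' *ᵥ v) = v := by
  classical
  have : NoZeroSMulDivisors R ((Fin n → R) ⧸ L) := by
    refine ⟨fun {a x} hax => or_iff_not_imp_left.mpr fun ha => ?_⟩
    obtain ⟨v, rfl⟩ := Submodule.Quotient.mk_surjective L x
    rw [← Submodule.Quotient.mk_smul, Submodule.Quotient.mk_eq_zero] at hax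
    exact (Submodule.Quotient.mk_eq_zero L).mpr (hL a v ha hax)
  have : Module.Free R ((Fin n → R) ⧸ L) := Module.free_of_finite_type_torsion_free'
  obtain ⟨sec, hsec⟩ := Module.projective_lifting_property L.mkQ LinearMap.id
    L.mkQ_surjective
  let π : (Fin n → R) →ₗ[R] L := LinearMap.codRestrict L (LinearMap.id - sec.comp L.mkQ) fun v => by
    rw [← Submodule.Quotient.mk_eq_zero]
    show L.mkQ (v - sec (L.mkQ v)) = 0
    rw [map_sub, show L.mkQ (sec (L.mkQ v)) = L.mkQ v from LinearMap.congr_fun hsec _, sub_self]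
  obtain ⟨s, b⟩ := Submodule.basisOfPid (Pi.basisFun R (Fin n)) L
  let e : (Fin s → R) →ₗ[R] (Fin n → R) := L.subtype.comp b.equivFun.symm.toLinearMap
  let e' : (Fin n → R) →ₗ[R] (Fin s → R) := b.equivFun.toLinearMap.comp π
  have hπ : ∀ v : L, π v = v := fun v => Subtype.ext (by
    show (v : Fin n → R) - sec (L.mkQ v) = v
    rw [show L.mkQ (v : Fin n → R) = 0 from (Submodule.Quotient.mk_eq_zero L).mpr v.2, map_zero,
      sub_zero])
  refine ⟨s, LinearMap.toMatrix' e, LinearMap.toMatrix' e', ?_, fun x => ?_, fun v hv => ?_⟩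
  · rw [← LinearMap.toMatrix'_comp, ← LinearMap.toMatrix'_id]
    congr 1
    refine LinearMap.ext fun x => ?_
    show b.equivFun (π ((b.equivFun.symm x : L) : Fin n → R)) = x
    rw [hπ, LinearEquiv.apply_symm_apply]
  · rw [← Matrix.toLin'_apply, Matrix.toLin'_toMatrix']
    exact (b.equivFun.symm x).2
  · rw [← Matrix.toLin'_apply, ← Matrix.toLin'_apply (LinearMap.toMatrix' e'),
      Matrix.toLin'_toMatrix', Matrix.toLin'_toMatrix']
    have := hπ ⟨v, hv⟩
    simp [e, e', this]

section Functional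

variable (B : Type*) [CommRing B] [IsDomain B] [IsDiscreteValuationRing B]
  [IsAdicComplete (maximalIdeal B) B] [Finite (ResidueField B)] [CharZero B]
  (hp : (p : B) ∈ maximalIdeal B)

omit [IsAdicComplete (maximalIdeal B) B] [CharZero B] in
/-- The quotients by powers of the maximal ideal are finite. -/
theorem finite_quotient_pow (e : ℕ) : Finite (B ⧸ maximalIdeal B ^ e) := by
  induction e with
  | zero =>
    rw [pow_zero, Ideal.one_eq_top]
    infer_instance
  | succ e ih =>
    have : Finite (B ⧸ maximalIdeal B ^ e) := ih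
    have : Finite (B ⧸ maximalIdeal B) := ‹Finite (ResidueField B)›
    obtain ⟨π, hπ⟩ := IsDiscreteValuationRing.exists_irreducible B
    obtain ⟨g, hg⟩ := (Ideal.Quotient.mk_surjective (I := maximalIdeal B ^ e)).hasRightInverse
    obtain ⟨g', hg'⟩ := (Ideal.Quotient.mk_surjective (I := maximalIdeal B)).hasRightInverse
    refine Finite.of_surjective (α := (B ⧸ maximalIdeal B ^ e) × (B ⧸ maximalIdeal B))
      (fun x => Ideal.Quotient.mk _ (g x.1 + π ^ e * g' x.2)) fun y => ?_
    obtain ⟨b, rfl⟩ := Ideal.Quotient.mk_surjective y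
    have h1 : b - g (Ideal.Quotient.mk _ b) ∈ maximalIdeal B ^ e :=
      Ideal.Quotient.eq.mp (hg _).symm
    have hmem : ∀ (n : ℕ) (x : B), x ∈ maximalIdeal B ^ n ↔ π ^ n ∣ x := fun n x => by
      rw [hπ.maximalIdeal_eq, Ideal.span_singleton_pow, Ideal.mem_span_singleton]
    rw [hmem] at h1
    obtain ⟨c, hc⟩ := h1
    refine ⟨(Ideal.Quotient.mk _ b, Ideal.Quotient.mk _ c), Ideal.Quotient.eq.mpr ?_⟩
    have h2 : g' (Ideal.Quotient.mk (maximalIdeal B) c) - c ∈ maximalIdeal B :=
      Ideal.Quotient.eq.mp (hg' _)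
    obtain ⟨d, hd⟩ : π ∣ g' (Ideal.Quotient.mk (maximalIdeal B) c) - c :=
      Ideal.mem_span_singleton.mp (hπ.maximalIdeal_eq.le h2)
    rw [hmem]
    exact ⟨d, by rw [pow_succ]; linear_combination π ^ e * hd - hc⟩

/-- `B` is finite over `ℤ_p`. -/
theorem moduleFinite_padic :
    letI := (RepTheory.padicHom p B hp).toAlgebra; Module.Finite ℤ_[p] B := by
  let := (RepTheory.padicHom p B hp).toAlgebra
  set I : Ideal ℤ_[p] := Ideal.span {(p : ℤ_[p])}
  obtain ⟨π, hπ⟩ := IsDiscreteValuationRing.exists_irreducible B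
  obtain ⟨e, u, hu⟩ := IsDiscreteValuationRing.eq_unit_mul_pow_irreducible
    (Nat.cast_ne_zero.mpr (Fact.out (p := p.Prime)).ne_zero : (p : B) ≠ 0) hπ
  have hIpow : ∀ (n : ℕ) (x : B), x ∈ (I ^ n • ⊤ : Submodule ℤ_[p] B) ↔ (p : B) ^ n ∣ x := by
    intro n x
    rw [Ideal.span_singleton_pow, Submodule.ideal_span_singleton_smul,
      Submodule.mem_smul_pointwise_iff_exists]
    simp only [Submodule.mem_top, true_and, Algebra.smul_def, map_pow, map_natCast, dvd_def,
      eq_comm]
  have : IsHausdorff I B := by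
    refine ⟨fun x hx => IsHausdorff.haus' (I := maximalIdeal B) x fun n => ?_⟩
    obtain ⟨c, rfl⟩ := (hIpow n x).1 (by simpa [SModEq.sub_mem] using hx n)
    rw [SModEq.sub_mem, sub_zero, smul_eq_mul, Ideal.mul_top]
    exact Ideal.mul_mem_right _ _ (Ideal.pow_mem_pow hp n)
  -- generators: lifts of the finitely many classes modulo `p`
  have := finite_quotient_pow B e
  cases nonempty_fintype (B ⧸ maximalIdeal B ^ e)
  obtain ⟨g, hg⟩ := (Ideal.Quotient.mk_surjective (I := maximalIdeal B ^ e)).hasRightInverse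
  classical
  let f : ((B ⧸ maximalIdeal B ^ e) → ℤ_[p]) →ₗ[ℤ_[p]] B := Fintype.linearCombination ℤ_[p] g
  have : IsPrecomplete I ((B ⧸ maximalIdeal B ^ e) → ℤ_[p]) := by
    have hcomp : IsAdicComplete I ℤ_[p] := by
      rw [show I = maximalIdeal ℤ_[p] from PadicInt.maximalIdeal_eq_span_p.symm]
      infer_instance
    refine ⟨fun F hF => ?_⟩
    have hproj : ∀ (i : B ⧸ maximalIdeal B ^ e) (n : ℕ),
        ∀ y ∈ (I ^ n • ⊤ : Submodule ℤ_[p] ((B ⧸ maximalIdeal B ^ e) → ℤ_[p])),
          y i ∈ (I ^ n • ⊤ : Submodule ℤ_[p] ℤ_[p]) := fun i n y hy =>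
      Submodule.smul_top_le_comap_smul_top _
        (LinearMap.proj i : ((B ⧸ maximalIdeal B ^ e) → ℤ_[p]) →ₗ[ℤ_[p]] ℤ_[p]) hy
    have h : ∀ i, ∃ L : ℤ_[p], ∀ n, F n i ≡ L [SMOD (I ^ n • ⊤ : Submodule ℤ_[p] ℤ_[p])] :=
      fun i => IsPrecomplete.prec' _ fun {m n} hmn => by
        rw [SModEq.sub_mem]
        exact hproj i m _ (SModEq.sub_mem.1 (hF hmn))
    choose L hL using h
    refine ⟨L, fun n => SModEq.sub_mem.2 ?_⟩
    rw [pi_eq_sum_univ (F n - L)]
    refine Submodule.sum_mem _ fun i _ => ?_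
    have hi := SModEq.sub_mem.1 (hL i n)
    rw [smul_eq_mul, Ideal.mul_top] at hi
    exact Submodule.smul_mem_smul hi Submodule.mem_top
  have hsurj : Function.Surjective f := by
    refine surjective_of_mkQ_comp_surjective (I := I) fun y => ?_
    obtain ⟨b, rfl⟩ := Submodule.Quotient.mk_surjective _ y
    refine ⟨Pi.single (Ideal.Quotient.mk _ b) 1, ?_⟩
    show Submodule.Quotient.mk (f _) = _
    rw [Fintype.linearCombination_apply_single, one_smul, Submodule.Quotient.eq,
      ← pow_one I, hIpow, pow_one, hu]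
    have := Ideal.Quotient.eq.mp (hg (Ideal.Quotient.mk (maximalIdeal B ^ e) b))
    have hmem : ∀ (n : ℕ) (x : B), x ∈ maximalIdeal B ^ n ↔ π ^ n ∣ x := fun n x => by
      rw [hπ.maximalIdeal_eq, Ideal.span_singleton_pow, Ideal.mem_span_singleton]
    rw [hmem] at this
    exact (Units.mul_left_dvd).mpr this
  exact Module.Finite.of_surjective f hsurj

/-- A `ℤ_p`-linear functional not vanishing at a given nonzero element. -/
theorem exists_functional {x : B} (hx : x ≠ 0) :
    ∃ τ : B →+ ℤ_[p], (∀ (a : ℤ_[p]) (y : B), τ (RepTheory.padicHom p B hp a * y) = a * τ y) ∧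
      τ x ≠ 0 := by
  let := (RepTheory.padicHom p B hp).toAlgebra
  have := moduleFinite_padic B hp
  have hinj : Function.Injective (algebraMap ℤ_[p] B) := by
    rw [injective_iff_map_eq_zero]
    intro a ha
    by_contra ha0
    obtain ⟨n, u, rfl⟩ := IsDiscreteValuationRing.eq_unit_mul_pow_irreducible ha0
      PadicInt.irreducible_p
    rw [map_mul, map_pow, map_natCast, mul_eq_zero] at ha
    exact ha.elim ((u.isUnit.map (algebraMap ℤ_[p] B)).ne_zero)
      (pow_ne_zero _ (Nat.cast_ne_zero.mpr (Fact.out (p := p.Prime)).ne_zero))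
  have : NoZeroSMulDivisors ℤ_[p] B := by
    refine ⟨fun {a y} h => ?_⟩
    rw [Algebra.smul_def, mul_eq_zero, map_eq_zero_iff _ hinj] at h
    exact h
  have : Module.Free ℤ_[p] B := Module.free_of_finite_type_torsion_free'
  obtain ⟨b⟩ := Module.Free.exists_basis (R := ℤ_[p]) (M := B)
  obtain ⟨i, hi⟩ : ∃ i, b.2.coord i x ≠ 0 := by
    by_contra h
    push Not at h
    exact hx (b.2.forall_coord_eq_zero_iff.mp h)
  exact ⟨(b.2.coord i).toAddMonoidHom, fun a y => by
    show b.2.coord i (a • y) = _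
    rw [map_smul, smul_eq_mul]; rfl, hi⟩

end Functional

end Fermat.Agent.TateExport
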