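import Fermat.Agent.TateExport.PadicLattice
import Fermat.Agent.RepTheory.QuadraticAdic
import Fermat.Agent.RepTheory.DVRExtension
import Mathlib.FieldTheory.IntermediateField.Adjoin.Basic

/-!
# A two-dimensional constituent inside an eigen lattice

`R₀ : Gal →* GL_n(ℤ_p)` commutes with integral matrices `T i`, satisfies `F² - T i F + ℓ = 0` at
Frobenius elements, and the system `T i v = t i • v` has a nonzero solution over a complete DVR `A`.
Over a finite extension `B` there are then a two-dimensional adic representation with the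
characteristic polynomials `X² - t i X + ℓ` and a nonzero equivariant matrix from it into the
eigen lattice in `Bⁿ`.
-/

set_option autoImplicit false

noncomputable section

open IsLocalRing Matrix Polynomial

namespace Fermat.Agent.TateExport

local notation "Gal" => AlgebraicClosure ℚ ≃ₐ[ℚ] AlgebraicClosure ℚ

variable {p : ℕ} [Fact p.Prime]

/-- `padicHom` is the only ring homomorphism from `ℤ_p`. -/
theorem padicHom_unique {O : Type} [CommRing O] [IsLocalRing O] [IsAdicComplete (maximalIdeal O) O]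
    (hp : (p : O) ∈ maximalIdeal O) (f : ℤ_[p] →+* O) : f = RepTheory.padicHom p O hp := by
  refine RingHom.ext fun a => ?_
  rw [← sub_eq_zero]
  refine IsHausdorff.haus' (I := maximalIdeal O) _ fun n => ?_
  rw [SModEq.sub_mem, sub_zero, smul_eq_mul, Ideal.mul_top]
  obtain ⟨b, hb⟩ := Ideal.mem_span_singleton'.mp (PadicInt.appr_spec n a)
  have hf : ∀ h : ℤ_[p] →+* O, h a = (a.appr n : O) + h b * (p : O) ^ n := fun h => by
    conv_lhs => rw [show a = (a.appr n : ℤ_[p]) + b * (p : ℤ_[p]) ^ n by rw [hb]; ring]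
    rw [map_add, map_mul, map_pow, map_natCast, map_natCast]
  rw [hf f, hf (RepTheory.padicHom p O hp), add_sub_add_left_eq_sub, ← sub_mul]
  exact Ideal.mul_mem_left _ _ (Ideal.pow_mem_pow hp n)

theorem padicHom_mem_pow {O : Type} [CommRing O] [IsLocalRing O]
    [IsAdicComplete (maximalIdeal O) O] (hp : (p : O) ∈ maximalIdeal O) {m : ℕ} {a : ℤ_[p]}
    (ha : a ∈ maximalIdeal ℤ_[p] ^ m) : RepTheory.padicHom p O hp a ∈ maximalIdeal O ^ m := by
  rw [PadicInt.maximalIdeal_eq_span_p, Ideal.span_singleton_pow, Ideal.mem_span_singleton'] at ha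
  obtain ⟨b, rfl⟩ := ha
  rw [map_mul, map_pow, map_natCast]
  exact Ideal.mul_mem_left _ _ (Ideal.pow_mem_pow hp m)

section Descent

variable {n : ℕ} {B F : Type} [CommRing B] [IsDomain B] [IsPrincipalIdealRing B] [Field F]

/-- The lattice of a minimal invariant subspace inside an eigenspace is a direct summand, and the
representation on it is absolutely irreducible. -/
theorem exists_full_lattice {G J : Type*} [Group G] [IsAlgClosed F] (f : B →+* F)
    (hf : Function.Injective f) (R : G →* Matrix (Fin n) (Fin n) B)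
    (T : J → Matrix (Fin n) (Fin n) B)
    (t : J → B) (W : Submodule F (Fin n → F))
    (hWR : ∀ g, ∀ x ∈ W, (R g).map f *ᵥ x ∈ W)
    (hWT : ∀ j, ∀ x ∈ W, (T j).map f *ᵥ x = f (t j) • x)
    (hmin : ∀ U : Submodule F (Fin n → F), U ≠ ⊥ → U ≤ W →
      (∀ g, ∀ x ∈ U, (R g).map f *ᵥ x ∈ U) → U = W)
    {v : Fin n → B} (hv0 : v ≠ 0) (hv : f ∘ v ∈ W) :
    ∃ (s : ℕ) (E : Matrix (Fin n) (Fin s) B) (E' : Matrix (Fin s) (Fin n) B),
      0 < s ∧ E' * E = 1 ∧ (∀ g, E * (E' * (R g * E)) = R g * E) ∧ (∀ j, T j * E = t j • E) ∧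
      ∀ RL : G →* Matrix (Fin s) (Fin s) B, (∀ g, RL g = E' * (R g * E)) →
        RepTheory.IsFull (RepTheory.mapRep f RL) := by
  classical
  let L : Submodule B (Fin n → B) :=
    { carrier := {x | f ∘ x ∈ W}
      add_mem' := fun {x y} hx hy => by
        show f ∘ (x + y) ∈ W
        rw [show f ∘ (x + y) = f ∘ x + f ∘ y from funext fun i => map_add f _ _]
        exact W.add_mem hx hy
      zero_mem' := by
        show f ∘ (0 : Fin n → B) ∈ W
        rw [show f ∘ (0 : Fin n → B) = 0 from funext fun i => map_zero f]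
        exact W.zero_mem
      smul_mem' := fun a x hx => by
        show f ∘ (a • x) ∈ W
        rw [show f ∘ (a • x) = f a • (f ∘ x) from funext fun i => map_mul f _ _]
        exact W.smul_mem _ hx }
  have hsat : ∀ (a : B) (x : Fin n → B), a ≠ 0 → a • x ∈ L → x ∈ L := fun a x ha hx => by
    have hx' : f ∘ (a • x) ∈ W := hx
    rw [show f ∘ (a • x) = f a • (f ∘ x) from funext fun i => map_mul f _ _] at hx'
    exact (W.smul_mem_iff ((map_ne_zero_iff f hf).mpr ha)).mp hx'
  obtain ⟨s, E, E', hEE, hEmem, hEL⟩ := exists_splitting L hsat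
  have hcomp : ∀ (M : Matrix (Fin n) (Fin n) B) (x : Fin n → B),
      f ∘ (M *ᵥ x) = M.map f *ᵥ (f ∘ x) := fun M x =>
    funext fun i => RingHom.map_mulVec f M x i
  have hstab : ∀ g x, x ∈ L → R g *ᵥ x ∈ L := fun g x hx => by
    show f ∘ (R g *ᵥ x) ∈ W
    rw [hcomp]
    exact hWR g _ hx
  have hRE : ∀ g, E * (E' * (R g * E)) = R g * E := fun g =>
    Matrix.toLin'.injective (LinearMap.ext fun x => by
      simp only [Matrix.toLin'_apply, ← Matrix.mulVec_mulVec]
      exact hEL _ (hstab g _ (hEmem x)))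
  have hs : 0 < s := by
    by_contra h0
    obtain rfl : s = 0 := by omega
    refine hv0 ?_
    rw [← hEL v hv, Subsingleton.elim (E' *ᵥ v) 0, Matrix.mulVec_zero]
  refine ⟨s, E, E', hs, hEE, hRE, fun j => ?_, fun RL hRL => ?_⟩
  · refine Matrix.toLin'.injective (LinearMap.ext fun x => ?_)
    simp only [Matrix.toLin'_apply, ← Matrix.mulVec_mulVec, Matrix.smul_mulVec]
    refine funext fun i => hf ?_
    have h := congrFun ((hcomp (T j) (E *ᵥ x)).trans (hWT j _ (hEmem x))) i
    simpa using h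
  · have hE'E : E'.map f * E.map f = 1 := by rw [← Matrix.map_mul, hEE]; simp
    refine RepTheory.isFull_of_isAlgClosed _ fun U hU => ?_
    let e : (Fin s → F) →ₗ[F] (Fin n → F) := Matrix.toLin' (E.map f)
    have heinj : Function.Injective e := fun x y hxy => by
      have := congrArg (E'.map f *ᵥ ·) hxy
      simpa [e, Matrix.mulVec_mulVec, hE'E] using this
    have heW : ∀ x, e x ∈ W := fun x => by
      have hx : e x = ∑ i, x i • (f ∘ fun a => E a i) := by
        funext a
        simp [e, Matrix.mulVec, dotProduct, mul_comm]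
      rw [hx]
      refine W.sum_mem fun i _ => W.smul_mem _ ?_
      have := hEmem (Pi.single i 1)
      rw [Matrix.mulVec_single_one] at this
      exact this
    have hinv : ∀ U : Submodule F (Fin s → F), (∀ g, ∀ x ∈ U, RepTheory.mapRep f RL g *ᵥ x ∈ U) →
        ∀ g, ∀ y ∈ U.map e, (R g).map f *ᵥ y ∈ U.map e := by
      rintro U' hU' g _ ⟨x, hx, rfl⟩
      refine ⟨_, hU' g x hx, ?_⟩
      show E.map f *ᵥ ((RL g).map f *ᵥ x) = (R g).map f *ᵥ (E.map f *ᵥ x)
      rw [Matrix.mulVec_mulVec, Matrix.mulVec_mulVec, ← Matrix.map_mul, ← Matrix.map_mul, hRL, hRE]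
    by_cases hU0 : U = ⊥
    · exact Or.inl hU0
    right
    have hne : U.map e ≠ ⊥ := fun h =>
      hU0 (Submodule.map_injective_of_injective heinj (h.trans (Submodule.map_bot e).symm))
    have hUW := hmin _ hne (by rintro _ ⟨x, -, rfl⟩; exact heW x) (hinv U hU)
    refine eq_top_iff.mpr fun x _ => ?_
    obtain ⟨y, hy, hyx⟩ : e x ∈ U.map e := hUW ▸ heW x
    rwa [← heinj hyx]

end Descent

/-- A full representation with quadratic relations as a two-dimensional representation with an
equivariant map to it. -/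
theorem exists_twoDim_matrix {B F : Type} [CommRing B] [IsLocalRing B] [Field F] (f : B →+* F)
    (hf : Function.Injective f) {s : ℕ} (hs : 0 < s) (R : Gal →* Matrix (Fin s) (Fin s) B)
    (d : Gal →* B) (hfull : RepTheory.IsFull (RepTheory.mapRep f R))
    (hR : RepTheory.EntryContinuous R) (hd : RepTheory.CharContinuous d)
    (hex : ∀ g, ∃ c : B, R g + d g • R g⁻¹ = c • (1 : Matrix (Fin s) (Fin s) B)) :
    ∃ (r : Gal →* Matrix (Fin 2) (Fin 2) B) (P : Matrix (Fin s) (Fin 2) B),
      RepTheory.MatrixContinuous r ∧ P ≠ 0 ∧ (∀ g, R g * P = P * r g) ∧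
      (∀ g, (r g).det = d g) ∧
      ∀ g c, R g + d g • R g⁻¹ = c • (1 : Matrix (Fin s) (Fin s) B) → (r g).trace = c := by
  classical
  let dF : Gal →* F := f.toMonoidHom.comp d
  have hrel : ∀ g c, R g + d g • R g⁻¹ = c • (1 : Matrix (Fin s) (Fin s) B) →
      RepTheory.mapRep f R g + dF g • RepTheory.mapRep f R g⁻¹ =
        f c • (1 : Matrix (Fin s) (Fin s) F) := fun g c h => by
    ext i j
    have h' := congrArg f (congrFun (congrFun h i) j)
    simpa [dF, Matrix.one_apply, apply_ite f] using h'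
  have hexF : ∀ g, ∃ c : F, RepTheory.mapRep f R g + dF g • RepTheory.mapRep f R g⁻¹ =
      c • (1 : Matrix (Fin s) (Fin s) F) := fun g => ⟨_, hrel g _ (hex g).choose_spec⟩
  have h2 : s ≤ 2 := EigenRep.le_two_of_isFull _ dF hfull hexF
  interval_cases s
  · -- a character `χ`
    let χ : Gal →* B :=
      { toFun := fun g => R g 0 0
        map_one' := by simp
        map_mul' := fun g g' => by simp [Matrix.mul_apply] }
    let r : Gal →* Matrix (Fin 2) (Fin 2) B :=
      { toFun := fun g => Matrix.diagonal ![χ g, d g * χ g⁻¹]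
        map_one' := by ext i j; fin_cases i <;> fin_cases j <;> simp
        map_mul' := fun g g' => by
          rw [Matrix.diagonal_mul_diagonal]
          congr 1
          funext i
          fin_cases i
          · exact map_mul χ g g'
          · show d (g * g') * χ (g * g')⁻¹ = d g * χ g⁻¹ * (d g' * χ g'⁻¹)
            rw [map_mul, _root_.mul_inv_rev, map_mul]
            ring }
    refine ⟨r, !![1, 0], fun m => ?_, fun h0 => ?_, fun g => ?_, fun g => ?_, fun g c hc => ?_⟩
    · obtain ⟨L, hL, hc⟩ := hR m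
      obtain ⟨L', hL', hc'⟩ := hd m
      refine ⟨L ⊔ L', inferInstance, fun σ hσ i j => ?_⟩
      have h1 : χ σ - 1 ∈ maximalIdeal B ^ m := by
        show R σ 0 0 - 1 ∈ _
        simpa using hc σ (fun x hx => hσ x (le_sup_left (a := L) hx)) 0 0
      have h1' : χ σ⁻¹ - 1 ∈ maximalIdeal B ^ m := by
        show R σ⁻¹ 0 0 - 1 ∈ _
        simpa using hc σ⁻¹ (fun x hx => by
          conv_lhs => rw [← hσ x (le_sup_left (a := L) hx)]
          exact σ.symm_apply_apply x) 0 0
      have h3 : d σ - 1 ∈ maximalIdeal B ^ m :=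
        hc' σ fun x hx => hσ x (le_sup_right (a := L) hx)
      have h4 : d σ * χ σ⁻¹ - 1 ∈ maximalIdeal B ^ m := by
        rw [show d σ * χ σ⁻¹ - 1 = d σ * (χ σ⁻¹ - 1) + (d σ - 1) by ring]
        exact add_mem (Ideal.mul_mem_left _ _ h1') h3
      fin_cases i <;> fin_cases j <;> simp [r, h1, h4]
    · simpa using congrFun (congrFun h0 0) 0
    · ext i j
      fin_cases i
      fin_cases j <;> simp [r, χ, Matrix.mul_apply]
    · have : χ g * χ g⁻¹ = 1 := by rw [← map_mul, mul_inv_cancel, map_one]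
      show (Matrix.diagonal ![χ g, d g * χ g⁻¹]).det = d g
      rw [Matrix.det_diagonal, Fin.prod_univ_two]
      show χ g * (d g * χ g⁻¹) = d g
      linear_combination d g * this
    · simpa [r, χ, Matrix.trace_fin_two] using congrFun (congrFun hc 0) 0
  · -- the representation itself
    have hdt := EigenRep.det_trace_of_isFull _ dF hfull hexF
    refine ⟨R, 1, hR, one_ne_zero, fun g => by rw [Matrix.mul_one, Matrix.one_mul],
      fun g => hf ((f.map_det (R g)).trans (hdt g).1), fun g c hc => hf ?_⟩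
    rw [← (hdt g).2 _ (hrel g c hc)]
    simp [Matrix.trace_fin_two]

/-- An eigenspace with a nonzero vector contains a minimal nonzero subspace stable under any
family of matrices commuting with the eigen operators. -/
theorem exists_minimal_invariant_eigen {F G J : Type*} [Field F] {n : ℕ}
    (R : G → Matrix (Fin n) (Fin n) F) (T : J → Matrix (Fin n) (Fin n) F) (t : J → F)
    (hcomm : ∀ g j, R g * T j = T j * R g) {x₀ : Fin n → F} (hx₀ : x₀ ≠ 0)
    (heig : ∀ j, T j *ᵥ x₀ = t j • x₀) :
    ∃ W : Submodule F (Fin n → F), W ≠ ⊥ ∧ (∀ g, ∀ x ∈ W, R g *ᵥ x ∈ W) ∧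
      (∀ j, ∀ x ∈ W, T j *ᵥ x = t j • x) ∧
      ∀ U : Submodule F (Fin n → F), U ≠ ⊥ → U ≤ W → (∀ g, ∀ x ∈ U, R g *ᵥ x ∈ U) → U = W := by
  let EF : Submodule F (Fin n → F) :=
    { carrier := {x | ∀ j, T j *ᵥ x = t j • x}
      add_mem' := fun {x y} hx hy j => by rw [Matrix.mulVec_add, hx j, hy j, smul_add]
      zero_mem' := fun j => by rw [Matrix.mulVec_zero, smul_zero]
      smul_mem' := fun c x hx j => by rw [Matrix.mulVec_smul, hx j, smul_comm] }
  have hEFinv : ∀ g, ∀ x ∈ EF, R g *ᵥ x ∈ EF := fun g x hx j => by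
    rw [Matrix.mulVec_mulVec, ← hcomm, ← Matrix.mulVec_mulVec, hx j, Matrix.mulVec_smul]
  have hEF : EF ≠ ⊥ := fun h => hx₀ ((Submodule.eq_bot_iff _).mp h x₀ heig)
  let inv : Submodule F (Fin n → F) → Prop := fun W =>
    W ≠ ⊥ ∧ W ≤ EF ∧ ∀ g, ∀ x ∈ W, R g *ᵥ x ∈ W
  obtain ⟨W, ⟨hW0, hWE, hWinv⟩, hWmin⟩ := WellFounded.has_min
    (inferInstance : WellFoundedLT (Submodule F (Fin n → F))).wf {W | inv W}
    ⟨EF, hEF, le_rfl, hEFinv⟩
  refine ⟨W, hW0, hWinv, fun j x hx => hWE hx j, fun U hU0 hUW hUinv => ?_⟩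
  by_contra hne
  exact hWmin U ⟨hU0, hUW.trans hWE, hUinv⟩ (lt_of_le_of_ne hUW hne)

/-- A nonzero vector over a fraction field has an integral nonzero multiple. -/
theorem exists_integral_multiple {B F : Type*} [CommRing B] [IsDomain B] [Field F] {L : Type*}
    [Field L] [Algebra B L] [IsFractionRing B L] (g : L →+* F) {n : ℕ} {w : Fin n → F}
    (hw : ∀ i, w i ∈ g.range) (hw0 : w ≠ 0) :
    ∃ (v : Fin n → B) (b : F), v ≠ 0 ∧ g.comp (algebraMap B L) ∘ v = b • w := by
  have hf : Function.Injective (g.comp (algebraMap B L)) :=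
    g.injective.comp (IsFractionRing.injective B L)
  choose w' hw' using hw
  obtain ⟨b, hb⟩ := IsLocalization.exist_integer_multiples (nonZeroDivisors B) Finset.univ w'
  choose v hv using fun i => hb i (Finset.mem_univ i)
  have hfv : g.comp (algebraMap B L) ∘ v = g.comp (algebraMap B L) b • w := funext fun i => by
    have h := congrArg g (hv i)
    rw [Algebra.smul_def, map_mul, hw'] at h
    exact h
  refine ⟨v, _, fun h0 => hw0 ?_, hfv⟩
  have hb0 : g.comp (algebraMap B L) b ≠ 0 :=
    (map_ne_zero_iff _ hf).mpr (nonZeroDivisors.coe_ne_zero b)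
  refine (smul_eq_zero.mp (hfv.symm.trans ?_)).resolve_left hb0
  subst h0
  exact funext fun i => map_zero _

/-- The compression of an entrywise continuous `ℤ_p`-representation to a stable direct summand is
entrywise continuous. -/
theorem entryContinuous_compression {B : Type} [CommRing B] [IsLocalRing B]
    [IsAdicComplete (maximalIdeal B) B] (hpB : (p : B) ∈ maximalIdeal B) {n s : ℕ}
    {R₀ : Gal →* Matrix (Fin n) (Fin n) ℤ_[p]} (hR₀ : RepTheory.EntryContinuous R₀)
    {E : Matrix (Fin n) (Fin s) B} {E' : Matrix (Fin s) (Fin n) B} (hEE : E' * E = 1)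
    {RL : Gal →* Matrix (Fin s) (Fin s) B}
    (hRL : ∀ σ, RL σ = E' * (RepTheory.mapRep (RepTheory.padicHom p B hpB) R₀ σ * E)) :
    RepTheory.EntryContinuous RL := fun m => by
  obtain ⟨L, hL, hc⟩ := hR₀ m
  refine ⟨L, hL, fun σ hσ i j => ?_⟩
  set R := RepTheory.mapRep (RepTheory.padicHom p B hpB) R₀
  have e : RL σ - 1 = E' * ((R σ - 1) * E) := by
    rw [hRL, Matrix.sub_mul, Matrix.one_mul, Matrix.mul_sub, hEE]
  rw [e, Matrix.mul_apply]
  refine Ideal.sum_mem _ fun x _ => Ideal.mul_mem_left _ _ ?_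
  rw [Matrix.mul_apply]
  refine Ideal.sum_mem _ fun y _ => Ideal.mul_mem_right _ _ ?_
  have h := padicHom_mem_pow hpB (hc σ hσ x y)
  rw [Matrix.sub_apply, map_sub, Matrix.one_apply, apply_ite (RepTheory.padicHom p B hpB),
    map_one, map_zero] at h
  rw [Matrix.sub_apply, Matrix.one_apply]
  exact h

/-- A quadratic relation `X² - T X + ℓ = 0`, compressed to a stable direct summand on which `T` is
the scalar `t`, becomes `Y + ℓ Y⁻¹ = t`. -/
theorem compressed_quadratic_relation {B : Type} [CommRing B] {n s : ℕ}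
    {X T : Matrix (Fin n) (Fin n) B} {E : Matrix (Fin n) (Fin s) B}
    {E' : Matrix (Fin s) (Fin n) B} {Y Yinv : Matrix (Fin s) (Fin s) B} {t ℓ : B}
    (hEE : E' * E = 1) (hXE : E * (E' * (X * E)) = X * E) (hY : Y = E' * (X * E))
    (hYinv : Y * Yinv = 1) (hTE : T * E = t • E) (hcomm : X * T = T * X)
    (h : X * X - T * X + ℓ • 1 = 0) : Y + ℓ • Yinv = t • 1 := by
  have hsq : Y * Y - t • Y + ℓ • 1 = 0 := by
    have e1 : Y * Y = E' * (X * X * E) := by
      rw [hY, Matrix.mul_assoc E', Matrix.mul_assoc X E, hXE, ← Matrix.mul_assoc X]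
    have e2 : t • Y = E' * (T * X * E) := by
      rw [hY, ← hcomm, Matrix.mul_assoc X, hTE, Matrix.mul_smul, Matrix.mul_smul]
    have e3 : ℓ • (1 : Matrix (Fin s) (Fin s) B) =
        E' * ((ℓ • (1 : Matrix (Fin n) (Fin n) B)) * E) := by
      rw [Matrix.smul_mul, Matrix.one_mul, Matrix.mul_smul, hEE]
    rw [e1, e2, e3, ← Matrix.mul_sub, ← Matrix.mul_add, ← Matrix.sub_mul, ← Matrix.add_mul, h,
      Matrix.zero_mul, Matrix.mul_zero]
  have := congrArg (· * Yinv) hsq
  simp only [add_mul, sub_mul, Matrix.smul_mul, one_mul, zero_mul, mul_assoc, hYinv,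
    mul_one] at this
  rwa [sub_add_eq_add_sub, sub_eq_zero] at this

variable {n : ℕ} {J : Type} (R₀ : Gal →* Matrix (Fin n) (Fin n) ℤ_[p])
  (T : J → Matrix (Fin n) (Fin n) ℤ)

/-- **The constituent.** -/
theorem exists_constituent (hR₀ : RepTheory.EntryContinuous R₀)
    (hcomm : ∀ σ j, R₀ σ * (T j).map (Int.cast : ℤ → ℤ_[p]) =
      (T j).map (Int.cast : ℤ → ℤ_[p]) * R₀ σ)
    {S : Set ℕ} (hS : RepTheory.FrobGenerates S) (hpS : p ∈ S)
    (hfrob : ∀ ℓ : ℕ, ℓ.Prime → ℓ ∉ S → ∃ j, ∀ P : ValuationSubring (AlgebraicClosure ℚ),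
      P.LiesOverPrime ℓ → ∀ φ : Gal, P.IsFrobeniusAt φ ℓ →
        R₀ φ * R₀ φ - (T j).map (Int.cast : ℤ → ℤ_[p]) * R₀ φ + (ℓ : ℤ_[p]) • 1 = 0)
    (A : Type) [CommRing A] [IsDomain A] [IsDiscreteValuationRing A]
    [IsAdicComplete (maximalIdeal A) A] [Finite (ResidueField A)] [CharZero A]
    (hp : (p : A) ∈ maximalIdeal A) (t : J → A) {v₀ : Fin n → A} (hv₀ : v₀ ≠ 0)
    (heig : ∀ j, (T j).map (Int.cast : ℤ → A) *ᵥ v₀ = t j • v₀) :
    ∃ (B : Type) (_ : CommRing B) (_ : IsDomain B) (_ : IsDiscreteValuationRing B)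
      (_ : IsAdicComplete (maximalIdeal B) B) (_ : Finite (ResidueField B)) (_ : CharZero B)
      (_ : Algebra A B) (_ : Module.Finite A B) (_ : IsLocalHom (algebraMap A B))
      (hpB : (p : B) ∈ maximalIdeal B),
      Function.Injective (algebraMap A B) ∧
      ∃ (r : Gal →* Matrix (Fin 2) (Fin 2) B) (U : Matrix (Fin n) (Fin 2) B),
        RepTheory.MatrixContinuous r ∧ U ≠ 0 ∧
        (∀ g, (R₀ g).map (RepTheory.padicHom p B hpB) * U = U * r g) ∧
        (∀ j, (T j).map (Int.cast : ℤ → B) * U = algebraMap A B (t j) • U) ∧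
        ∀ (φ : Gal) (ℓ : ℕ) (j : J), RepTheory.cycloChar p B hpB φ = ℓ →
          R₀ φ * R₀ φ - (T j).map (Int.cast : ℤ → ℤ_[p]) * R₀ φ + (ℓ : ℤ_[p]) • 1 = 0 →
            (r φ).trace = algebraMap A B (t j) ∧ (r φ).det = ℓ := by
  classical
  let K := FractionRing A
  let F := AlgebraicClosure K
  let a : A →+* F := algebraMap A F
  have ha : Function.Injective a := by
    rw [show a = (algebraMap K F).comp (algebraMap A K) from IsScalarTower.algebraMap_eq A K F]
    exact (algebraMap K F).injective.comp (IsFractionRing.injective A K)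
  let fZ : ℤ_[p] →+* F := a.comp (RepTheory.padicHom p A hp)
  have hTF : ∀ {X : Type} [CommRing X] (h : X →+* F) (j : J),
      ((T j).map (Int.cast : ℤ → X)).map h = (T j).map (Int.cast : ℤ → F) := fun h j => by
    ext i k
    simp
  -- a minimal invariant subspace of the eigenspace over `F`
  obtain ⟨W, hW0, hWinv, hWT, hWmin⟩ := exists_minimal_invariant_eigen
    (fun g => (R₀ g).map fZ) (fun j => (T j).map (Int.cast : ℤ → F)) (fun j => a (t j))
    (fun g j => by
      have h := congrArg (fun M : Matrix (Fin n) (Fin n) ℤ_[p] => M.map fZ) (hcomm g j)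
      simpa only [Matrix.map_mul, hTF] using h)
    (x₀ := a ∘ v₀) (fun h => hv₀ (funext fun i => ha ((congrFun h i).trans (map_zero a).symm)))
    fun j => funext fun i => by
      have h := RingHom.map_mulVec a ((T j).map (Int.cast : ℤ → A)) v₀ i
      rw [heig j, hTF] at h
      rw [← h]
      simp
  obtain ⟨w, hwW, hw0⟩ := Submodule.exists_mem_ne_zero_of_ne_bot hW0
  -- the finite extension over which `w` is defined
  let F2 : IntermediateField K F := IntermediateField.adjoin K (Set.range w)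
  have : FiniteDimensional K F2 := IntermediateField.finiteDimensional_adjoin
    fun x _ => Algebra.IsIntegral.isIntegral x
  let B := integralClosure A F2
  have i1 := RepTheory.isDiscreteValuationRing_integralClosure A F2
  have i2 := RepTheory.isAdicComplete_integralClosure A F2
  have i3 := RepTheory.finite_residueField_integralClosure A F2
  have i4 := RepTheory.charZero_integralClosure A F2
  have i5 := RepTheory.finite_integralClosure A F2
  have i6 := RepTheory.isLocalHom_integralClosure A F2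
  have hinj := RepTheory.algebraMap_integralClosure_injective A F2
  have hpB : (p : B) ∈ maximalIdeal B := by
    rw [← map_natCast (algebraMap A B)]
    exact map_nonunit (algebraMap A B) _ hp
  let f : B →+* F := (algebraMap F2 F).comp B.val.toRingHom
  have hf : Function.Injective f := (algebraMap F2 F).injective.comp Subtype.val_injective
  have hfA : ∀ x : A, f (algebraMap A B x) = a x := fun x => by
    show algebraMap F2 F (algebraMap A F2 x) = algebraMap A F x
    rw [IsScalarTower.algebraMap_apply A K F2, ← IsScalarTower.algebraMap_apply K F2 F,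
      ← IsScalarTower.algebraMap_apply A K F]
  have hfZ : f.comp (RepTheory.padicHom p B hpB) = fZ := by
    rw [← padicHom_unique hpB ((algebraMap A B).comp (RepTheory.padicHom p A hp))]
    exact RingHom.ext fun x => hfA _
  have := RepTheory.isFractionRing_integralClosure A F2
  obtain ⟨v, c, hv0, hvc⟩ := exists_integral_multiple (B := B) (L := F2) (algebraMap F2 F)
    (fun i => ⟨⟨w i, IntermediateField.subset_adjoin K _ ⟨i, rfl⟩⟩, rfl⟩) hw0
  have hvW : f ∘ v ∈ W := (show f ∘ v = c • w from hvc) ▸ W.smul_mem c hwW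
  let R : Gal →* Matrix (Fin n) (Fin n) B :=
    RepTheory.mapRep (RepTheory.padicHom p B hpB) R₀
  have hRf : ∀ g, (R g).map f = (R₀ g).map fZ := fun g => by
    rw [← hfZ]
    ext i j
    rfl
  obtain ⟨s, E, E', hs, hEE, hRE, hTE, hfullE⟩ := exists_full_lattice f hf R
    (fun j => (T j).map (Int.cast : ℤ → B)) (fun j => algebraMap A B (t j)) W
    (fun g x hx => by rw [hRf]; exact hWinv g x hx)
    (fun j x hx => by rw [hTF f, hfA]; exact hWT j x hx)
    (fun U hU0 hUW hUinv => hWmin U hU0 hUW fun g x hx => hRf g ▸ hUinv g x hx)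
    hv0 hvW
  let RL : Gal →* Matrix (Fin s) (Fin s) B :=
    { toFun := fun g => E' * (R g * E)
      map_one' := by rw [map_one, Matrix.one_mul, hEE]
      map_mul' := fun g h => by
        rw [map_mul, Matrix.mul_assoc E' (R g * E), Matrix.mul_assoc (R g) E, hRE,
          ← Matrix.mul_assoc (R g)] }
  have hRL : RepTheory.EntryContinuous RL :=
    entryContinuous_compression hpB hR₀ hEE fun σ => rfl
  let d : Gal →* B := RepTheory.cycloChar p B hpB
  have hd : RepTheory.CharContinuous d := fun m => RepTheory.cycloChar_continuous p B hpB m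
  have hrelφ : ∀ (φ : Gal) (ℓ : ℕ) (j : J), d φ = ℓ →
      R₀ φ * R₀ φ - (T j).map (Int.cast : ℤ → ℤ_[p]) * R₀ φ + (ℓ : ℤ_[p]) • 1 = 0 →
      RL φ + d φ • RL φ⁻¹ = algebraMap A B (t j) • 1 := by
    intro φ ℓ j hdφ h
    have h' : R φ * R φ - (T j).map (Int.cast : ℤ → B) * R φ + (ℓ : B) • 1 = 0 := by
      have := congrArg (RepTheory.padicHom p B hpB).mapMatrix h
      rw [map_add, map_sub, map_mul, map_mul, map_zero, Nat.cast_smul_eq_nsmul, map_nsmul,
        map_one] at this
      rw [Nat.cast_smul_eq_nsmul]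
      have hT : (RepTheory.padicHom p B hpB).mapMatrix ((T j).map (Int.cast : ℤ → ℤ_[p])) =
          (T j).map (Int.cast : ℤ → B) := by ext i k; simp
      rw [hT] at this
      exact this
    have hcB : R φ * (T j).map (Int.cast : ℤ → B) = (T j).map (Int.cast : ℤ → B) * R φ := by
      have := congrArg (RepTheory.padicHom p B hpB).mapMatrix (hcomm φ j)
      rw [map_mul, map_mul] at this
      have hT : (RepTheory.padicHom p B hpB).mapMatrix ((T j).map (Int.cast : ℤ → ℤ_[p])) =
          (T j).map (Int.cast : ℤ → B) := by ext i k; simp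
      rw [hT] at this
      exact this
    rw [hdφ]
    exact compressed_quadratic_relation hEE (hRE φ) rfl
      (by rw [← map_mul, mul_inv_cancel, map_one]) (hTE j) hcB h'
  have hex : ∀ g, ∃ c : B, RL g + d g • RL g⁻¹ = c • (1 : Matrix (Fin s) (Fin s) B) := by
    refine fun g => ⟨_, RepTheory.scalar_of_frobenius hS RL d hRL hd (fun φ hφ => ?_) ⟨0, hs⟩ g⟩
    obtain ⟨ℓ, hℓ, hℓS, P, hP, hfr⟩ := hφ
    obtain ⟨j, hj⟩ := hfrob ℓ hℓ hℓS
    exact ⟨_, hrelφ φ ℓ j
      (RepTheory.cycloChar_frobenius p B hpB hℓ (fun h => hℓS (h ▸ hpS)) hP hfr) (hj P hP φ hfr)⟩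
  obtain ⟨r, Q, hr, hQ, hRQ, hdet, htr⟩ :=
    exists_twoDim_matrix f hf hs RL d (hfullE RL fun g => rfl) hRL hd hex
  refine ⟨B, inferInstance, inferInstance, i1, i2, i3, i4, inferInstance, i5, i6, hpB, hinj, r,
    E * Q, hr, fun h0 => hQ ?_, fun g => ?_, fun j => ?_, fun φ ℓ j hφ h => ?_⟩
  · have := congrArg (E' * ·) h0
    simpa [← Matrix.mul_assoc, hEE] using this
  · show R g * (E * Q) = E * Q * r g
    rw [Matrix.mul_assoc E, ← hRQ]
    show R g * (E * Q) = E * (E' * (R g * E) * Q)
    rw [← Matrix.mul_assoc, ← Matrix.mul_assoc E, hRE]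
  · rw [← Matrix.mul_assoc, hTE, Matrix.smul_mul]
  · exact ⟨htr φ _ (hrelφ φ ℓ j hφ h), (hdet φ).trans hφ⟩

end Fermat.Agent.TateExport
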