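import Fermat.Agent.TateExport.PadicLattice
import Fermat.Agent.HeckeDatum.Operators
import Fermat.Agent.KummerES.Interface
import Fermat.Agent.RepTheory.QuadraticAdic

/-!
# The Galois modules of parabolic characters in the limit

In the coordinates of a basis of `Hom_par(Γ₀(N), ℤ)` the modules `Hom_par(Γ₀(N), ℤ/pᵏ)` of a
`Gamma0Modules N p` become one representation `padicRep : Gal →* GL_r(ℤ_p)` commuting with the
integral matrices of the transfers and satisfying the Eichler–Shimura relation.
-/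

set_option autoImplicit false

noncomputable section

open CongruenceSubgroup ModularCurve ModularCurve.Period Matrix
open scoped MatrixGroups

namespace Fermat.Agent.TateExport

open HeckeLattice
open HeckeDatum (ParChar)

local notation "Gal" => AlgebraicClosure ℚ ≃ₐ[ℚ] AlgebraicClosure ℚ

variable (N : ℕ)

/-- A basis of `Hom_par(Γ₀(N), ℤ)` with dual elements of the group. -/
structure ParCoords : Type where
  /-- The rank. -/
  r : ℕ
  /-- The elements of the group. -/
  γ : Fin r → Additive (Gamma0 N)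
  /-- The integral parabolic homomorphisms. -/
  φ : Fin r → Additive (Gamma0 N) →+ ℤ
  isParabolic : ∀ i, IsParabolicHom (Gamma0 N) (φ i)
  dual : ∀ i j, φ i (γ j) = if i = j then 1 else 0
  span : ∀ (R : Type) [AddCommGroup R] [IsAddTorsionFree R] (f : Additive (Gamma0 N) →+ R),
    IsParabolicHom (Gamma0 N) f → ∀ x, f x = ∑ i, φ i x • f (γ i)

/-- Coordinates on the parabolic homomorphisms exist. -/
theorem nonempty_parCoords [NeZero N] : Nonempty (ParCoords N) := by
  let P := ParGroup N
  let Q := P ⧸ Submodule.torsion ℤ P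
  have : Module.Free ℤ Q := Module.free_of_finite_type_torsion_free'
  let b := Module.finBasis ℤ Q
  let π : Additive (Gamma0 N) →+ Q :=
    (Submodule.torsion ℤ P).mkQ.toAddMonoidHom.comp (parHom N)
  have hπ : Function.Surjective π :=
    (Submodule.mkQ_surjective _).comp (parHom_surjective N)
  choose γ hγ using fun i => hπ (b i)
  refine ⟨⟨_, γ, fun i => (b.coord i).toAddMonoidHom.comp π, fun i δ hδ => ?_, fun i j => ?_, ?_⟩⟩
  · show b.coord i (π (Additive.ofMul δ)) = 0
    have h0 : π (Additive.ofMul δ) = 0 := by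
      show (Submodule.torsion ℤ P).mkQ (parHom N (Additive.ofMul δ)) = 0
      rw [parHom_isParabolicHom N δ hδ, map_zero]
    rw [h0, map_zero]
  · show b.coord i (π (γ j)) = _
    rw [hγ, Module.Basis.coord_apply, Module.Basis.repr_self, Finsupp.single_apply]
    simp only [eq_comm]
  · intro R _ _ f hf x
    let f' : P →ₗ[ℤ] R := (factor f hf).toIntLinearMap
    have hle : Submodule.torsion ℤ P ≤ LinearMap.ker f' := by
      intro y hy
      obtain ⟨a, ha⟩ := hy
      have h2 := congrArg f' (show (a : ℤ) • y = 0 from ha)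
      rw [map_smul, map_zero] at h2
      exact (smul_eq_zero.mp h2).resolve_left (nonZeroDivisors.coe_ne_zero a)
    let F : Q →ₗ[ℤ] R := (Submodule.torsion ℤ P).liftQ f' hle
    have hF : ∀ y, f y = F (π y) := fun y => (DFunLike.congr_fun (factor_comp_parHom f hf) y).symm
    rw [hF x]
    conv_lhs => rw [← b.sum_repr (π x), map_sum]
    exact Finset.sum_congr rfl fun i _ => by
      rw [map_smul, ← hγ i, ← hF]; rfl

variable {N}

namespace ParCoords

variable (K : ParCoords N) {R : Type} [CommRing R]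

/-- The parabolic homomorphism with the given coordinates. -/
def toHom (c : Fin K.r → R) : Additive (Gamma0 N) →+ R where
  toFun x := ∑ i, (K.φ i x : R) * c i
  map_zero' := by simp
  map_add' x y := by simp [add_mul, Finset.sum_add_distrib]

/-- The values of `toHom`. -/
lemma toHom_apply (c : Fin K.r → R) (x : Additive (Gamma0 N)) :
    K.toHom c x = ∑ i, (K.φ i x : R) * c i := rfl

/-- The value of `toHom c` at `γ i` is `c i`. -/
@[simp] lemma toHom_γ (c : Fin K.r → R) (i : Fin K.r) : K.toHom c (K.γ i) = c i := by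
  simp [toHom_apply, K.dual, eq_comm]

lemma toHom_isParabolic (c : Fin K.r → R) : IsParabolicHom (Gamma0 N) (K.toHom c) := fun δ hδ => by
  simp [toHom_apply, K.isParabolic _ δ hδ]

lemma toHom_add (c c' : Fin K.r → R) : K.toHom (c + c') = K.toHom c + K.toHom c' :=
  AddMonoidHom.ext fun x => by simp [toHom_apply, mul_add, Finset.sum_add_distrib]

/-- A parabolic homomorphism is `toHom` of its values at the `γ i`. -/
lemma eq_toHom [IsAddTorsionFree R] {f : Additive (Gamma0 N) →+ R}
    (hf : IsParabolicHom (Gamma0 N) f) : f = K.toHom fun i => f (K.γ i) :=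
  AddMonoidHom.ext fun x => by
    rw [K.span R f hf x, toHom_apply]
    simp only [zsmul_eq_mul]

/-- The integral matrix of the transfer `T_ℓ`. -/
def heckeMat {ℓ : ℕ} [Fact ℓ.Prime] (hℓN : ¬ ℓ ∣ N) : Matrix (Fin K.r) (Fin K.r) ℤ :=
  Matrix.of fun i j => transfer hℓN (K.φ j) (K.γ i)

/-- The transfer acts on coordinates by `heckeMat`. -/
lemma transfer_toHom {ℓ : ℕ} [Fact ℓ.Prime] (hℓN : ¬ ℓ ∣ N) [IsAddTorsionFree R]
    (c : Fin K.r → R) :
    transfer hℓN (K.toHom c) = K.toHom ((K.heckeMat hℓN).map (Int.cast : ℤ → R) *ᵥ c) := by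
  refine (K.eq_toHom (CosetSystem.transfer_isParabolicHom _ (K.toHom_isParabolic c))).trans
    (congrArg K.toHom (funext fun i => ?_))
  let g : Fin K.r → ℤ →+ R := fun j => zmultiplesHom R (c j)
  have hc : K.toHom c = ∑ j, (g j).comp (K.φ j) := AddMonoidHom.ext fun x => by
    simp [toHom_apply, g, AddMonoidHom.finsetSum_apply]
  rw [hc, map_sum, AddMonoidHom.finsetSum_apply]
  simp only [Matrix.mulVec, dotProduct, Matrix.map_apply]
  refine Finset.sum_congr rfl fun j _ => ?_
  rw [← (gamma0System N ℓ hℓN).comp_transfer]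
  simp [g, heckeMat]

section Reduction

variable {p : ℕ} [Fact p.Prime] (k : ℕ)

/-- Reduction of coordinates to a parabolic character mod `pᵏ`. -/
def red : (Fin K.r → ℤ_[p]) →+ ParChar N (p ^ k) where
  toFun c := ⟨(PadicInt.toZModPow k).toAddMonoidHom.comp (K.toHom c), fun δ hδ => by
    show PadicInt.toZModPow k (K.toHom c (Additive.ofMul δ)) = 0
    rw [K.toHom_isParabolic c δ hδ, map_zero]⟩
  map_zero' := Subtype.ext (AddMonoidHom.ext fun x => by simp [toHom_apply])
  map_add' c c' := Subtype.ext (by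
    show (PadicInt.toZModPow k).toAddMonoidHom.comp (K.toHom (c + c')) =
      (PadicInt.toZModPow k).toAddMonoidHom.comp (K.toHom c) +
        (PadicInt.toZModPow k).toAddMonoidHom.comp (K.toHom c')
    rw [toHom_add, AddMonoidHom.comp_add])

lemma red_apply (c : Fin K.r → ℤ_[p]) (x : Additive (Gamma0 N)) :
    (K.red k c : Additive (Gamma0 N) →+ ZMod (p ^ k)) x = PadicInt.toZModPow k (K.toHom c x) := rfl

lemma red_apply_γ (c : Fin K.r → ℤ_[p]) (i : Fin K.r) :
    (K.red k c : Additive (Gamma0 N) →+ ZMod (p ^ k)) (K.γ i) = PadicInt.toZModPow k (c i) := by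
  rw [red_apply, toHom_γ]

/-- The reductions of a coordinate vector are compatible. -/
lemma red_compat (c : Fin K.r → ℤ_[p]) (x : Additive (Gamma0 N)) :
    ZMod.castHom (pow_dvd_pow p k.le_succ) (ZMod (p ^ k))
      ((K.red (k + 1) c : Additive (Gamma0 N) →+ ZMod (p ^ (k + 1))) x) =
      (K.red k c : Additive (Gamma0 N) →+ ZMod (p ^ k)) x :=
  PadicInt.cast_toZModPow k (k + 1) k.le_succ _

/-- The transfer commutes with reduction. -/
lemma transfer_red {ℓ : ℕ} [Fact ℓ.Prime] (hℓN : ¬ ℓ ∣ N) (c : Fin K.r → ℤ_[p]) :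
    transfer hℓN (K.red k c : Additive (Gamma0 N) →+ ZMod (p ^ k)) =
      (K.red k ((K.heckeMat hℓN).map (Int.cast : ℤ → ℤ_[p]) *ᵥ c) :
        Additive (Gamma0 N) →+ ZMod (p ^ k)) := by
  have h := (gamma0System N ℓ hℓN).comp_transfer (PadicInt.toZModPow k).toAddMonoidHom (K.toHom c)
  have h' := congrArg ((PadicInt.toZModPow (p := p) k).toAddMonoidHom.comp ·)
    (K.transfer_toHom hℓN c)
  exact h.symm.trans h'

end Reduction

/-- A coordinate vector is determined by its reductions. -/
lemma eq_of_red {p : ℕ} [Fact p.Prime] {c c' : Fin K.r → ℤ_[p]}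
    (h : ∀ k, K.red k c = K.red k c') : c = c' :=
  funext fun i => PadicInt.ext_of_toZModPow.mp fun k => by
    rw [← red_apply_γ, ← red_apply_γ, h k]

lemma matrix_eq_of_red {p : ℕ} [Fact p.Prime] {A B : Matrix (Fin K.r) (Fin K.r) ℤ_[p]}
    (h : ∀ k c, K.red k (A *ᵥ c) = K.red k (B *ᵥ c)) : A = B :=
  Matrix.toLin'.injective (LinearMap.ext fun c => K.eq_of_red fun k => h k c)

end ParCoords

variable {p : ℕ} [Fact p.Prime] (G : KummerES.Gamma0Modules N p) (K : ParCoords N)

/-- The `p`-adic values of `σ` on the `j`-th basis character. -/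
theorem exists_padicValue (σ : Gal) (j : Fin K.r) (x : Additive (Gamma0 N)) :
    ∃ a : ℤ_[p], ∀ k, PadicInt.toZModPow k a =
      (G.rep k σ (K.red k (Pi.single j 1)) : Additive (Gamma0 N) →+ ZMod (p ^ k)) x :=
  exists_padicInt _ fun k => G.compat k σ _ _ (fun δ => K.red_compat k _ δ) x

/-- The limit representation in coordinates. -/
def padicMat (σ : Gal) : Matrix (Fin K.r) (Fin K.r) ℤ_[p] :=
  Matrix.of fun i j => (exists_padicValue G K σ j (K.γ i)).choose

lemma rep_red (σ : Gal) (k : ℕ) (c : Fin K.r → ℤ_[p]) :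
    G.rep k σ (K.red k c) = K.red k (padicMat G K σ *ᵥ c) := by
  choose v hv using exists_padicValue G K σ
  have hadd : ∀ j, ∃ f : Additive (Gamma0 N) →+ ℤ_[p], IsParabolicHom (Gamma0 N) f ∧
      ∀ x, f x = v j x := by
    intro j
    refine ⟨AddMonoidHom.mk' (v j) fun x y => PadicInt.ext_of_toZModPow.mp fun k => by
      rw [map_add, hv, hv, hv, map_add], fun δ hδ => PadicInt.ext_of_toZModPow.mp fun k => ?_,
      fun x => rfl⟩
    show PadicInt.toZModPow k (v j (Additive.ofMul δ)) = PadicInt.toZModPow k 0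
    rw [map_zero, hv j (Additive.ofMul δ) k]
    exact (G.rep k σ (K.red k (Pi.single j 1))).2 δ hδ
  choose f hfp hf using hadd
  have hcol : ∀ j, G.rep k σ (K.red k (Pi.single j 1)) =
      K.red k (padicMat G K σ *ᵥ Pi.single j 1) := by
    intro j
    refine Subtype.ext (AddMonoidHom.ext fun x => ?_)
    rw [ParCoords.red_apply, ← hv j x k, ← hf]
    refine congrArg (PadicInt.toZModPow k)
      (DFunLike.congr_fun ((K.eq_toHom (hfp j)).trans (congrArg K.toHom (funext fun i => ?_))) x)
    rw [Matrix.mulVec_single_one, hf]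
    exact PadicInt.ext_of_toZModPow.mp fun m => (hv j _ m).trans
      ((exists_padicValue G K σ j (K.γ i)).choose_spec m).symm
  have hsmul : ∀ (a : ℤ_[p]) (d : Fin K.r → ℤ_[p]),
      K.red k (a • d) = (PadicInt.toZModPow k a).val • K.red k d := by
    intro a d
    refine Subtype.ext (AddMonoidHom.ext fun x => ?_)
    rw [Submodule.coe_smul_of_tower, AddMonoidHom.nsmul_apply, ParCoords.red_apply,
      ParCoords.red_apply, nsmul_eq_mul, ZMod.natCast_zmod_val, ← map_mul]
    congr 1
    simp [ParCoords.toHom_apply, Finset.mul_sum, mul_left_comm]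
  conv_lhs => rw [pi_eq_sum_univ' c]
  conv_rhs => rw [pi_eq_sum_univ' c, Matrix.mulVec_sum]
  simp only [map_sum, hsmul, map_nsmul, Matrix.mulVec_smul, hcol]

/-- The limit representation. -/
def padicRep : Gal →* Matrix (Fin K.r) (Fin K.r) ℤ_[p] where
  toFun := padicMat G K
  map_one' := K.matrix_eq_of_red fun k c => by
    rw [← rep_red, map_one, Matrix.one_mulVec]
    rfl
  map_mul' σ τ := K.matrix_eq_of_red fun k c => by
    rw [← rep_red, map_mul, ← Matrix.mulVec_mulVec, ← rep_red, ← rep_red]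
    rfl

/-- Galois acts on the reductions through `padicRep`. -/
lemma rep_red' (σ : Gal) (k : ℕ) (c : Fin K.r → ℤ_[p]) :
    G.rep k σ (K.red k c) = K.red k (padicRep G K σ *ᵥ c) := rep_red G K σ k c

/-- `padicRep` commutes with the Hecke matrices. -/
theorem padicRep_hecke (σ : Gal) {ℓ : ℕ} (hℓ : ℓ.Prime) (hℓN : ¬ ℓ ∣ N) :
    haveI := Fact.mk hℓ
    padicRep G K σ * (K.heckeMat hℓN).map (Int.cast : ℤ → ℤ_[p]) =
      (K.heckeMat hℓN).map (Int.cast : ℤ → ℤ_[p]) * padicRep G K σ := by
  have := Fact.mk hℓ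
  refine K.matrix_eq_of_red fun k c => Subtype.ext ?_
  rw [← Matrix.mulVec_mulVec, ← Matrix.mulVec_mulVec, ← rep_red' G K σ k, ← K.transfer_red,
    ← rep_red' G K σ k]
  exact (G.hecke_comm k σ ℓ hℓ hℓN _ _ (K.transfer_red k hℓN c)).symm

/-- The Eichler-Shimura relation for `padicRep`. -/
theorem padicRep_frobenius {ℓ : ℕ} (hℓ : ℓ.Prime) (hℓN : ¬ ℓ ∣ N) (hℓp : ℓ ≠ p)
    {A : ValuationSubring (AlgebraicClosure ℚ)} (hA : A.LiesOverPrime ℓ) {σ : Gal}
    (hσ : A.IsFrobeniusAt σ ℓ) :
    haveI := Fact.mk hℓ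
    padicRep G K σ * padicRep G K σ -
      (K.heckeMat hℓN).map (Int.cast : ℤ → ℤ_[p]) * padicRep G K σ + (ℓ : ℤ_[p]) • 1 = 0 := by
  have := Fact.mk hℓ
  refine K.matrix_eq_of_red fun k c => Subtype.ext ?_
  rw [Matrix.zero_mulVec, map_zero, Matrix.add_mulVec, Matrix.sub_mulVec, map_add, map_sub,
    Submodule.coe_add, AddSubgroupClass.coe_sub, ← Matrix.mulVec_mulVec, ← Matrix.mulVec_mulVec,
    ← K.transfer_red, ← rep_red' G K σ k, ← rep_red' G K σ k, Matrix.smul_mulVec,
    Matrix.one_mulVec, Nat.cast_smul_eq_nsmul, map_nsmul, Submodule.coe_smul_of_tower,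
    ZeroMemClass.coe_zero]
  exact G.frobenius k ℓ hℓ hℓN hℓp A hA σ hσ (K.red k c)

/-- Each entry of `padicRep` is continuous. -/
theorem padicRep_continuous : RepTheory.EntryContinuous (padicRep G K) := by
  intro m
  obtain ⟨L, hL, hfix⟩ := G.finiteLevel m
  refine ⟨L, hL, fun σ hσ i j => ?_⟩
  have h := congrArg (fun z : ParChar N (p ^ m) => z.1 (K.γ i))
    ((rep_red' G K σ m (Pi.single j 1)).symm.trans (DFunLike.congr_fun (hfix σ hσ) _))
  simp only [AddMonoid.End.coe_one, id_eq, ParCoords.red_apply_γ, Matrix.mulVec_single_one,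
    Matrix.col_apply] at h
  rw [PadicInt.maximalIdeal_eq_span_p, Ideal.span_singleton_pow, ← PadicInt.ker_toZModPow,
    RingHom.mem_ker, Matrix.sub_apply, map_sub, h, sub_eq_zero, Matrix.one_apply, Pi.single_apply]

end Fermat.Agent.TateExport
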