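import Fermat.Agent.TateExport.Limit
import Fermat.Agent.TateExport.Constituent
import Fermat.Agent.CarayolReduction.Main
import Fermat.Agent.TWHyp.Curve
import Fermat.Agent.RepTheory.OfMatrix

/-!
# The eigen constituent of the Tate module of `J₀(N)`

From compatible equivariant maps of parabolic characters to the torsion of `J₀(N)` (`HasTateMaps`)
every eigen system gives a two-dimensional adic representation with a nonzero equivariant map to
the Tate module intertwining the Hecke operators (`tateExport_of_maps`).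
-/

set_option autoImplicit false

noncomputable section

open CongruenceSubgroup ModularCurve ModularCurve.Period Matrix
open scoped MatrixGroups

namespace Fermat.Agent.TateExport

open HeckeLattice CarayolReduction
open HeckeDatum (ParChar)

local notation "Gal" => AlgebraicClosure ℚ ≃ₐ[ℚ] AlgebraicClosure ℚ

variable {N : ℕ} [NeZero N] {p : ℕ}

/-- Compatible equivariant maps from the parabolic characters mod `pᵏ` to `J₀(N)`, intertwining
the transfers with the Hecke operators, with kernels killed by a fixed integer. -/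
def HasTateMaps (G : KummerES.Gamma0Modules N p) : Prop :=
  ∃ (d : ℕ) (Φ : ∀ k : ℕ, ParChar N (p ^ k) →+ JZero N), d ≠ 0 ∧
    (∀ (k : ℕ) (x : ParChar N (p ^ (k + 1))) (y : ParChar N (p ^ k)),
      (∀ γ, ZMod.castHom (pow_dvd_pow p k.le_succ) (ZMod (p ^ k)) (x.1 γ) = y.1 γ) →
      p • Φ (k + 1) x = Φ k y) ∧
    (∀ (k : ℕ) (σ : Gal) (x : ParChar N (p ^ k)), Φ k (G.rep k σ x) = σ • Φ k x) ∧
    (∀ (k ℓ : ℕ) (hℓ : ℓ.Prime) (hℓN : ¬ ℓ ∣ N) (x y : ParChar N (p ^ k)),
      (haveI := Fact.mk hℓ; transfer hℓN x.1) = y.1 →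
      Φ k y = heckeOperatorBar N ⟨ℓ, hℓ⟩ (Φ k x)) ∧
    ∀ (k : ℕ) (x : ParChar N (p ^ k)), Φ k x = 0 → d • x = 0

section

variable [Fact p.Prime] {G : KummerES.Gamma0Modules N p} (K : ParCoords N)

/-- The map from coordinates to the Tate module. -/
theorem exists_tateVector (h : HasTateMaps G) :
    ∃ J : (Fin K.r → ℤ_[p]) →+ tateModule (JZero N) p, Function.Injective J ∧
      (∀ (σ : Gal) c n, (J (padicRep G K σ *ᵥ c)).1 n = σ • (J c).1 n) ∧
      ∀ (ℓ : ℕ) (hℓ : ℓ.Prime) (hℓN : ¬ ℓ ∣ N) c n,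
        haveI := Fact.mk hℓ
        (J ((K.heckeMat hℓN).map (Int.cast : ℤ → ℤ_[p]) *ᵥ c)).1 n =
          heckeOperatorBar N ⟨ℓ, hℓ⟩ ((J c).1 n) := by
  obtain ⟨d, Φ, hd, hcompat, hgal, hhecke, hker⟩ := h
  refine ⟨AddMonoidHom.mk' (fun c => ⟨fun k => Φ k (K.red k c), ?_, fun k => ?_⟩) fun c c' => ?_,
    ?_, fun σ c n => ?_, fun ℓ hℓ hℓN c n => ?_⟩
  · have h0 : K.red 0 c = 0 := Subtype.ext (AddMonoidHom.ext fun x => by
      have : Subsingleton (ZMod (p ^ 0)) := by rw [pow_zero]; infer_instance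
      exact Subsingleton.elim _ _)
    show Φ 0 (K.red 0 c) = 0
    rw [h0, map_zero]
  · exact hcompat k _ _ fun γ => K.red_compat k c γ
  · exact Subtype.ext (funext fun k => by
      show Φ k (K.red k (c + c')) = Φ k (K.red k c) + Φ k (K.red k c')
      rw [map_add, map_add])
  · rw [injective_iff_map_eq_zero]
    intro c hc
    have h1 : ∀ k, K.red k (d • c) = 0 := fun k => by
      rw [map_nsmul]
      exact hker k _ (congrFun (congrArg Subtype.val hc) k)
    have h2 : d • c = 0 := K.eq_of_red fun k => by rw [h1 k, map_zero]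
    exact (smul_eq_zero.mp h2).resolve_left hd
  · show Φ n (K.red n (padicRep G K σ *ᵥ c)) = σ • Φ n (K.red n c)
    rw [← rep_red' G K σ n c, hgal]
  · have := Fact.mk hℓ
    exact hhecke n ℓ hℓ hℓN _ _ (K.transfer_red n hℓN c)

/-- The eigenvector in coordinates of the periods of an eigenform, transported along a character
of the Hecke algebra. -/
theorem exists_eigenvector {g : CuspForm (Gamma0 N) 2} (hg : g.IsNormalizedEigenform)
    {A : Type} [CommRing A] [IsDomain A] [CharZero A]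
    (c : (HeckeEigen.eigenChar hg (badSet N)).range →+* A) :
    ∃ v : Fin K.r → A, v ≠ 0 ∧ ∀ (ℓ : ℕ) (hℓ : ℓ.Prime) (hℓN : ¬ ℓ ∣ N),
      (haveI := Fact.mk hℓ; K.heckeMat hℓN).map (Int.cast : ℤ → A) *ᵥ v =
        c ((HeckeEigen.eigenChar hg (badSet N)).rangeRestrict
          (CuspForm.heckeAlgebra.T hℓ hℓN (not_mem_badSet hℓN))) • v := by
  classical
  let χ := HeckeEigen.eigenChar hg (badSet N)
  -- the character is injective
  have hinjc : Function.Injective c := by
    rw [injective_iff_map_eq_zero]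
    intro x hx
    by_contra hx0
    have hfin : Module.Finite ℤ (CuspForm.heckeAlgebra N 2 (badSet N)) :=
      moduleFinite_heckeAlgebra (S := badSet N) fun q hq h => ⟨hq, h⟩
    have : Module.Finite ℤ χ.range :=
      Module.Finite.of_surjective χ.rangeRestrict.toAddMonoidHom.toIntLinearMap
        χ.rangeRestrict_surjective
    have hi : IsIntegral ℤ x := Algebra.IsIntegral.isIntegral x
    obtain ⟨z, hz, hxz⟩ : ∃ z : ℤ, z ≠ 0 ∧ x ∣ (z : χ.range) := by
      obtain ⟨z, hz, hxz⟩ :=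
        hi.isAlgebraic.exists_nonzero_dvd (mem_nonZeroDivisors_of_ne_zero hx0)
      exact ⟨z, hz, by rwa [← eq_intCast (algebraMap ℤ χ.range)]⟩
    obtain ⟨y, hy⟩ := hxz
    have := congrArg c hy
    rw [map_mul, hx, zero_mul, map_intCast, Int.cast_eq_zero] at this
    exact hz this
  let w : Fin K.r → ℂ := fun i => periodMap N g (K.γ i)
  have hgw : periodMap N g = K.toHom w := K.eq_toHom (periodMap_isParabolicHom g)
  have hw0 : w ≠ 0 := fun h0 => hg.ne_zero (eq_zero_of_periodMap_eq_zero g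
    (hgw.trans (AddMonoidHom.ext fun x => by simp [h0, ParCoords.toHom_apply])))
  have hTw : ∀ (ℓ : ℕ) (hℓ : ℓ.Prime) (hℓN : ¬ ℓ ∣ N),
      (haveI := Fact.mk hℓ; K.heckeMat hℓN).map (Int.cast : ℤ → ℂ) *ᵥ w =
        χ (CuspForm.heckeAlgebra.T hℓ hℓN (not_mem_badSet hℓN)) • w := by
    intro ℓ hℓ hℓN
    have := Fact.mk hℓ
    have h := periodMap_heckeTLin hℓ hℓN g
    have he := HeckeEigen.eigenChar_smul hg
      (CuspForm.heckeAlgebra.T hℓ hℓN (not_mem_badSet hℓN))
    rw [CuspForm.heckeAlgebra.coe_T] at he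
    rw [he, ← periodLin_apply, map_smul, periodLin_apply, hgw, K.transfer_toHom] at h
    funext i
    have := DFunLike.congr_fun h (K.γ i)
    simp only [AddMonoidHom.smul_apply, ParCoords.toHom_γ, smul_eq_mul] at this
    simpa using this.symm
  -- a solution over the fraction field of the coefficient ring
  let K0 : Subfield ℂ := Subfield.closure (χ.range : Set ℂ)
  obtain ⟨i0, hi0⟩ : ∃ i, w i ≠ 0 := by
    by_contra hall
    push Not at hall
    exact hw0 (funext hall)
  obtain ⟨ψ, hψ⟩ : ∃ ψ : ℂ →ₗ[K0] K0, ψ (w i0) ≠ 0 := by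
    by_contra hall
    push Not at hall
    exact hi0 ((Module.forall_dual_apply_eq_zero_iff K0 (w i0)).mp hall)
  -- clear denominators
  have hden : ∀ z : K0, ∃ a b : χ.range, b ≠ 0 ∧ (z : ℂ) * b = a := by
    rintro ⟨z, hz⟩
    obtain ⟨a, ha, b, hb, rfl⟩ := Subfield.mem_closure_iff.mp hz
    rw [Subring.closure_eq] at ha hb
    by_cases hb0 : b = 0
    · exact ⟨0, 1, one_ne_zero, by simp [hb0]⟩
    · exact ⟨⟨a, ha⟩, ⟨b, hb⟩, fun h => hb0 (congrArg Subtype.val h),
        div_mul_cancel₀ a hb0⟩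
  choose a b hb hab using fun i => hden (ψ (w i))
  let u : Fin K.r → χ.range := fun i => a i * ∏ j ∈ Finset.univ.erase i, b j
  have hu : ∀ i, (u i : ℂ) = (ψ (w i) : ℂ) * ((∏ j, b j : χ.range) : ℂ) := fun i => by
    rw [← Finset.mul_prod_erase Finset.univ b (Finset.mem_univ i), Subring.coe_mul,
      Subring.coe_mul, ← mul_assoc, hab i]
  refine ⟨fun i => c (u i), fun h0 => ?_, fun ℓ hℓ hℓN => ?_⟩
  · have h1 : u i0 = 0 := hinjc ((congrFun h0 i0).trans (map_zero c).symm)
    have h2 := hu i0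
    rw [h1, Subring.coe_zero, eq_comm, mul_eq_zero] at h2
    exact h2.elim (fun h => hψ (Subtype.ext h))
      (fun h => Finset.prod_ne_zero_iff.mpr (fun j _ => hb j) (Subtype.ext h))
  · have := Fact.mk hℓ
    set t := χ.rangeRestrict (CuspForm.heckeAlgebra.T hℓ hℓN (not_mem_badSet hℓN))
    have hur : (K.heckeMat hℓN).map (Int.cast : ℤ → χ.range) *ᵥ u = t • u := by
      funext i
      refine Subtype.ext ?_
      have h := congrFun (hTw ℓ hℓ hℓN) i
      let tK : K0 := ⟨(t : ℂ), Subfield.subset_closure t.2⟩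
      have h' := congrArg (fun z => ((ψ z : K0) : ℂ)) h
      simp only [Matrix.mulVec, dotProduct, Matrix.map_apply, map_sum, Pi.smul_apply,
        smul_eq_mul] at h'
      have e1 : ∀ (z : ℤ) (x : ℂ), (ψ ((z : ℂ) * x) : ℂ) = (z : ℂ) * (ψ x : ℂ) := fun z x => by
        rw [← zsmul_eq_mul, map_zsmul, zsmul_eq_mul]
        push_cast
        ring
      have e2 : ∀ x : ℂ, (ψ ((t : ℂ) * x) : ℂ) = (t : ℂ) * (ψ x : ℂ) := fun x => by
        have := congrArg (fun y : K0 => (y : ℂ)) (map_smul ψ tK x)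
        simpa [Subfield.smul_def, tK] using this
      have h2 : (χ (CuspForm.heckeAlgebra.T hℓ hℓN (not_mem_badSet hℓN))) = (t : ℂ) := rfl
      rw [AddSubmonoidClass.coe_finsetSum, h2, e2] at h'
      simp only [e1] at h'
      simp only [Matrix.mulVec, dotProduct, Matrix.map_apply, Pi.smul_apply, smul_eq_mul,
        AddSubmonoidClass.coe_finsetSum, Subring.coe_mul, hu, Subring.coe_intCast]
      rw [← mul_assoc, ← h', Finset.sum_mul]
      exact Finset.sum_congr rfl fun j _ => by ring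
    funext i
    have h := congrArg (fun f : Fin K.r → χ.range => c (f i)) hur
    simp only [Matrix.mulVec, dotProduct, map_sum, map_mul, Pi.smul_apply, smul_eq_mul,
      Matrix.map_apply, map_intCast] at h ⊢
    exact h

end

/-- **`TateExport` from Galois modules of parabolic characters mapping to the torsion of the
Jacobian.** -/
theorem tateExport_of_maps [Fact p.Prime] (G : KummerES.Gamma0Modules N p) (h : HasTateMaps G) :
    CarayolReduction.TateExport N p := by
  classical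
  intro g hg A _ _ _ _ _ _ hpA c
  obtain ⟨K⟩ := nonempty_parCoords N
  obtain ⟨J, hJinj, hJgal, hJhecke⟩ := exists_tateVector K h
  obtain ⟨v₀, hv₀, heig⟩ := exists_eigenvector K hg c
  let T : {ℓ : ℕ // ℓ.Prime ∧ ¬ ℓ ∣ N} → Matrix (Fin K.r) (Fin K.r) ℤ := fun l =>
    haveI := Fact.mk l.2.1
    K.heckeMat l.2.2
  let t : {ℓ : ℕ // ℓ.Prime ∧ ¬ ℓ ∣ N} → A := fun l =>
    c ((HeckeEigen.eigenChar hg (badSet N)).rangeRestrict
      (CuspForm.heckeAlgebra.T l.2.1 l.2.2 (not_mem_badSet l.2.2)))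
  have hS : RepTheory.FrobGenerates (↑(insert p N.primeFactors) : Set ℕ) :=
    TWHyp.frobGenerates _
  obtain ⟨B, i0, i1, i2, i3, i4, i5, i6, i7, i8, hpB, hinj, r, U, hr, hU, hRU, hTU, hch⟩ :=
    exists_constituent (padicRep G K) T (padicRep_continuous G K)
      (fun σ l => padicRep_hecke G K σ l.2.1 l.2.2) hS (by simp)
      (fun ℓ hℓ hℓS => by
        simp only [Finset.coe_insert, Set.mem_insert_iff, Finset.mem_coe, not_or] at hℓS
        have hℓN : ¬ ℓ ∣ N := fun hd =>
          hℓS.2 (Nat.mem_primeFactors.mpr ⟨hℓ, hd, NeZero.ne N⟩)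
        exact ⟨⟨ℓ, hℓ, hℓN⟩, fun P hP φ hφ => padicRep_frobenius G K hℓ hℓN hℓS.1 hP hφ⟩)
      A hpA t hv₀ (fun l => heig l.1 l.2.1 l.2.2)
  let ρ : GaloisRepAdic B := RepTheory.adicOfMatrix r hr
  obtain ⟨i, k, hik⟩ : ∃ i k, U i k ≠ 0 := by
    by_contra hall
    push Not at hall
    exact hU (Matrix.ext hall)
  obtain ⟨τ, hτ, hτ0⟩ := exists_functional B hpB hik
  let coord : (Fin 2 → B) →+ (Fin K.r → ℤ_[p]) :=
    AddMonoidHom.mk' (fun x a => τ ((U *ᵥ x) a)) fun x y => funext fun a => by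
      simp [Matrix.mulVec_add]
  have hcoord : ∀ (M : Matrix (Fin K.r) (Fin K.r) ℤ_[p]) (x : Fin 2 → B),
      (fun a => τ ((M.map (RepTheory.padicHom p B hpB) *ᵥ (U *ᵥ x)) a)) = M *ᵥ coord x :=
    fun M x => funext fun a => by
      simp [Matrix.mulVec, dotProduct, coord, map_sum, hτ]
  refine ⟨B, i0, i1, i2, i3, i4, i5, i6, i7, i8, hinj, ρ, fun l hl hlM hlp P hP σ hσ => ?_,
    J.comp coord, fun h0 => hτ0 ?_, fun σ v n => ?_, fun l hl hlM v n => ?_⟩
  · obtain ⟨htr, hdet⟩ := hch σ l ⟨l, hl, hlM⟩ (RepTheory.cycloChar_frobenius p B hpB hl hlp hP hσ)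
      (padicRep_frobenius G K hl hlM hlp hP hσ)
    exact (RepTheory.charpoly_adicOfMatrix r hr σ).trans (by rw [htr, hdet])
  · have h1 : coord (Pi.single k 1) = 0 := hJinj ((DFunLike.congr_fun h0 _).trans (map_zero J).symm)
    simpa [coord, Matrix.mulVec_single_one] using congrFun h1 i
  · have h1 : coord (ρ.ρ σ v) = padicRep G K σ *ᵥ coord v := by
      rw [← hcoord]
      funext a
      show τ ((U *ᵥ (r σ *ᵥ v)) a) = _
      rw [Matrix.mulVec_mulVec, ← hRU, ← Matrix.mulVec_mulVec]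
    show (J (coord (ρ.ρ σ v))).1 n = _
    rw [h1, hJgal]
    rfl
  · show (J (coord (algebraMap A B (t ⟨l, hl, hlM⟩) • v))).1 n = _
    have h1 : coord (algebraMap A B (t ⟨l, hl, hlM⟩) • v) =
        (T ⟨l, hl, hlM⟩).map (Int.cast : ℤ → ℤ_[p]) *ᵥ coord v := by
      rw [← hcoord]
      funext a
      have hT : ((T ⟨l, hl, hlM⟩).map (Int.cast : ℤ → ℤ_[p])).map
          (RepTheory.padicHom p B hpB) = (T ⟨l, hl, hlM⟩).map (Int.cast : ℤ → B) := by
        ext x y
        simp
      rw [hT, Matrix.mulVec_mulVec, hTU, Matrix.smul_mulVec]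
      have hs : ∀ (b : B) (x : Fin 2 → B), τ ((U *ᵥ (b • x)) a) = τ ((b • (U *ᵥ x)) a) :=
        fun b x => by rw [Matrix.mulVec_smul]
      exact hs _ v
    rw [h1]
    exact hJhecke l hl hlM (coord v) n

end Fermat.Agent.TateExport
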